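import Fermat.Agent.S45.Haupt.RotK
import Fermat.Agent.S36.Haupt.Val

/-!
# S45 / [MODK-HAUPT] : the uniformisers `1 - h(D₁τ)/h(D₂τ)`, `1 - j(D₁τ)/j(D₂τ)` of the middle components

ARCHITECTURE-INDEPENDENT.  `σ : F →+* L((T))` any ring hom of a field, `x y : F` with
`σ x = v(T^n)`, `σ y = rot ξ (v(T^n))`, `u v = 1` in `ℤ((T))`, `z := ξ^n`.

* `sigma_one_subK` : `σ (1 - x/y) = (1 - u(zT)/u(T))(T^n)`;
* `sigma_quotK`    : `σ (1 - x/y) = (1-z) ((Du/u)(T^n) + (1-z) r)`;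
* `sigma_powK`     : `σ (1 - x/y)^(q^(s-1)(q-1)) = q (-((Du/u)(T^n))^(..) + (1-z) R)`, `z` of order `q^s`;
* `exists_sigma_redK`, `normalForm_sigmaK`, `redTo_sigma_powK` : the `RedTo` forms;
* `redTo_sigma_otherK` : on the components where the two exponents differ, `σ (1 - x/y) ≡ 1 - v(T^a) u(T^b) ≠ 0`;
* the instances `(u,v) = (tSer,hSer)` (`Du/u = -G²`) and `(jInvSer, jq)` (`Du/u = w_J ∈ 1 + Tℤ[[T]]`);
* the elements `varpiK L D₁ D₂`, `varpiJK L D₁ D₂ : FN L`, their expansion at `∞`, integrality, descent to `F0`.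
-/

set_option autoImplicit false
set_option linter.unusedSectionVars false

open ModularCurve Fermat.Agent.S24 Fermat.Agent.S28 Fermat.Agent.RED.Gauss Fermat.Agent.S36

noncomputable section

namespace Fermat.Agent.S45

/-! ### formal part -/

section Formal

variable {L : Type*} [Field L] {F : Type*} [Field F] (σ : F →+* LaurentSeries L)
  (n : ℕ) [NeZero n] (ξ : Lˣ) {x y : F} {u v : LaurentSeries ℤ} (huv : u * v = 1)
  (hx : σ x = qExpand L n (castLS L v)) (hy : σ y = rot ξ (qExpand L n (castLS L v)))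

theorem castLS_qExpandK (w : LaurentSeries ℤ) :
    castLS L (qExpand ℤ n w) = qExpand L n (castLS L w) := by
  simp only [castLS, coeffMap_qExpand]

include huv hx hy in
theorem sigma_one_subK :
    σ (1 - x * y⁻¹) = qExpand L n (1 - rot (ξ ^ n) (castLS L u) * (castLS L u)⁻¹) := by
  have h1 : castLS L u * castLS L v = 1 := by rw [← map_mul, huv, map_one]
  have h2 : castLS L v = (castLS L u)⁻¹ := eq_inv_of_mul_eq_one_right h1
  rw [map_sub, map_one, map_mul, map_inv₀, hx, hy, rot_qExpandK, ← map_inv₀, ← map_mul, h2,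
    rot_inv, inv_inv, map_sub, map_one, mul_comm]

include huv hx hy in
/-- `σ (1 - x/y) = (1-z) ((Du/u)(T^n) + (1-z) r)`. -/
theorem sigma_quotK (hz1 : IsIntegral ℤ ((ξ ^ n : Lˣ) : L))
    (hz2 : IsIntegral ℤ (((ξ ^ n)⁻¹ : Lˣ) : L)) : ∃ r : LaurentSeries L, IntS r ∧
    σ (1 - x * y⁻¹) = HahnSeries.C (1 - ((ξ ^ n : Lˣ) : L)) *
      (castLS L (qExpand ℤ n (DL u * v)) + HahnSeries.C (1 - ((ξ ^ n : Lˣ) : L)) * r) := by
  obtain ⟨r, hr, h⟩ := exists_rot_quot (ξ ^ n) hz1 hz2 u v huv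
  refine ⟨qExpand L n r, intS_qExpandK n hr, ?_⟩
  rw [sigma_one_subK σ n ξ huv hx hy, h, map_mul, map_add, map_mul, qExpand_C, castLS_qExpandK]

include huv hx hy in
/-- `σ (1 - x/y)^(q^(s-1)(q-1)) = q (-((Du/u)(T^n))^(..) + (1-z) R)`. -/
theorem sigma_powK [CharZero L] {q s : ℕ} (hq : q.Prime) (hs : s ≠ 0)
    (hz : IsPrimitiveRoot (ξ ^ n) (q ^ s)) : ∃ R : LaurentSeries L, IntS R ∧
    σ (1 - x * y⁻¹) ^ (q ^ (s - 1) * (q - 1)) = HahnSeries.C (q : L) *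
      (- castLS L (qExpand ℤ n (DL u * v)) ^ (q ^ (s - 1) * (q - 1))
        + HahnSeries.C (1 - ((ξ ^ n : Lˣ) : L)) * R) := by
  obtain ⟨R, hR, h⟩ := exists_rot_pow_ppK hq hs (ξ ^ n) hz u v huv
  refine ⟨qExpand L n R, intS_qExpandK n hR, ?_⟩
  have hp : castLS L ((DL u * v) ^ (q ^ (s - 1) * (q - 1)))
      = castLS L (DL u * v) ^ (q ^ (s - 1) * (q - 1)) :=
    map_pow (coeffMap (Int.castRingHom L)) _ _
  rw [sigma_one_subK σ n ξ huv hx hy, ← map_pow, h, map_mul, map_add, map_mul, map_neg, qExpand_C,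
    qExpand_C, hp, map_pow, castLS_qExpandK]

theorem isIntegral_of_primitiveK {m : ℕ} (hm : 0 < m) {z : Lˣ} (hz : IsPrimitiveRoot z m) :
    IsIntegral ℤ (z : L) ∧ IsIntegral ℤ ((z⁻¹ : Lˣ) : L) :=
  ⟨(IsPrimitiveRoot.coe_units_iff.2 hz).isIntegral hm,
    (IsPrimitiveRoot.coe_units_iff.2 hz.inv).isIntegral hm⟩

theorem isIntegral_of_pow_eq_oneK {m : ℕ} (hm : 0 < m) {z : Lˣ} (hz : z ^ m = 1) :
    IsIntegral ℤ (z : L) ∧ IsIntegral ℤ ((z⁻¹ : Lˣ) : L) := by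
  have h1 : (z : L) ^ m = 1 := by rw [← Units.val_pow_eq_pow_val, hz, Units.val_one]
  have h2 : ((z⁻¹ : Lˣ) : L) ^ m = 1 := by
    rw [← Units.val_pow_eq_pow_val, inv_pow, hz, inv_one, Units.val_one]
  exact ⟨IsIntegral.of_pow hm (by rw [h1]; exact isIntegral_one),
    IsIntegral.of_pow hm (by rw [h2]; exact isIntegral_one)⟩

end Formal

/-! ### `RedTo` forms -/

section Red

variable {L : Type*} [Field L] {A : ValuationSubring L} {k : Type*} [Field k] {π : A →+* k}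
  (hπ : IsResMap π) {F : Type*} [Field F] (σ : F →+* LaurentSeries L)
  (n : ℕ) [NeZero n] (ξ : Lˣ) {x y : F} {u v : LaurentSeries ℤ} (huv : u * v = 1)
  (hx : σ x = qExpand L n (castLS L v)) (hy : σ y = rot ξ (qExpand L n (castLS L v)))
  (hv : A.valuation (1 - ((ξ ^ n : Lˣ) : L)) < 1)

include hπ huv hx hy hv in
/-- `σ (1 - x/y) = (1-z) w`, `w ≡ (Du/u)(T^n)`. -/
theorem exists_sigma_redK (hz1 : IsIntegral ℤ ((ξ ^ n : Lˣ) : L))
    (hz2 : IsIntegral ℤ (((ξ ^ n)⁻¹ : Lˣ) : L)) : ∃ w : LaurentSeries L,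
    RedTo π w (castLS k (qExpand ℤ n (DL u * v))) ∧
      σ (1 - x * y⁻¹) = HahnSeries.C (1 - ((ξ ^ n : Lˣ) : L)) * w := by
  obtain ⟨r, hr, h⟩ := sigma_quotK σ n ξ huv hx hy hz1 hz2
  exact ⟨_, RedTo.add_C_mul (redTo_castLS _) hπ hv hr, h⟩

include hπ huv hx hy hv in
theorem normalForm_sigmaK (hz1 : IsIntegral ℤ ((ξ ^ n : Lˣ) : L))
    (hz2 : IsIntegral ℤ (((ξ ^ n)⁻¹ : Lˣ) : L))
    (hne : castLS k (qExpand ℤ n (DL u * v)) ≠ 0) :
    NormalForm π (1 - ((ξ ^ n : Lˣ) : L)) (σ (1 - x * y⁻¹)) 1 := by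
  obtain ⟨w, hw, h⟩ := exists_sigma_redK hπ σ n ξ huv hx hy hv hz1 hz2
  rw [h]
  exact hw.normalForm_one hne

include hπ huv hx hy hv in
/-- `σ (1 - x/y)^(q^(s-1)(q-1)) / q ≡ -((Du/u)(T^n))^(..)`. -/
theorem redTo_sigma_powK [CharZero L] {q s : ℕ} (hq : q.Prime) (hs : s ≠ 0)
    (hz : IsPrimitiveRoot (ξ ^ n) (q ^ s)) :
    RedTo π (σ (1 - x * y⁻¹) ^ (q ^ (s - 1) * (q - 1)) / HahnSeries.C (q : L))
      (-(castLS k (qExpand ℤ n (DL u * v))) ^ (q ^ (s - 1) * (q - 1))) := by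
  obtain ⟨R, hR, h⟩ := sigma_powK σ n ξ huv hx hy hq hs hz
  have hq0 : (HahnSeries.C (q : L) : LaurentSeries L) ≠ 0 :=
    HahnSeries.C_ne_zero (by exact_mod_cast hq.ne_zero)
  rw [h, mul_div_cancel_left₀ _ hq0]
  exact RedTo.add_C_mul ((redTo_castLS _).pow _).neg hπ hv hR

end Red

/-! ### the other components -/

section Other

variable {L : Type*} [Field L] {A : ValuationSubring L} {k : Type*} [Field k] {π : A →+* k}
  (hπ : IsResMap π) {F : Type*} [Field F] (σ : F →+* LaurentSeries L)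
  (a b : ℕ) [NeZero a] [NeZero b] (ξ₁ ξ₂ : Lˣ) {x y : F} {u v : LaurentSeries ℤ} (huv : u * v = 1)
  (hx : σ x = rot ξ₁ (qExpand L a (castLS L v))) (hy : σ y = rot ξ₂ (qExpand L b (castLS L v)))

include hπ huv hx hy in
/-- `σ (1 - x/y) ≡ 1 - v(T^a) u(T^b)` for rotations by roots of unity `≡ 1`. -/
theorem redTo_sigma_otherK
    (h11 : IsIntegral ℤ (ξ₁ : L)) (h12 : IsIntegral ℤ ((ξ₁⁻¹ : Lˣ) : L))
    (h1v : A.valuation (1 - (ξ₁ : L)) < 1)
    (h21 : IsIntegral ℤ (ξ₂ : L)) (h22 : IsIntegral ℤ ((ξ₂⁻¹ : Lˣ) : L))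
    (h2v : A.valuation (1 - (ξ₂ : L)) < 1) :
    RedTo π (σ (1 - x * y⁻¹)) (castLS k (1 - qExpand ℤ a v * qExpand ℤ b u)) := by
  have h1 : castLS L u * castLS L v = 1 := by rw [← map_mul, huv, map_one]
  have h2 : (castLS L v)⁻¹ = castLS L u := inv_eq_of_mul_eq_one_left h1
  have e : σ (1 - x * y⁻¹) = 1 - rot ξ₁ (castLS L (qExpand ℤ a v)) *
      rot ξ₂ (castLS L (qExpand ℤ b u)) := by
    rw [map_sub, map_one, map_mul, map_inv₀, hx, hy, ← rot_inv, ← map_inv₀, h2, castLS_qExpandK,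
      castLS_qExpandK]
  rw [e]
  refine (redTo_one.sub ((redTo_rot hπ ξ₁ h11 h12 h1v _).mul
    (redTo_rot hπ ξ₂ h21 h22 h2v _))).congr rfl ?_
  simp only [castLS, map_sub, map_one, map_mul]

end Other

/-! ### the two instances -/

theorem DL_tSer_mulK : DL tSer * hSer = -(gS ^ 2) := by
  rw [DL_tSer_mul, ofPowerSeries_G4ser_sq]

theorem DL_jInvSer_mulK : DL jInvSer * jqModC ℤ = wJS := DL_jInvSer_mul

theorem castLS_qExpand_ne_zeroK {k : Type*} [Field k] (n : ℕ) [NeZero n] {w : LaurentSeries ℤ}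
    (hw : castLS k w ≠ 0) : castLS k (qExpand ℤ n w) ≠ 0 := by
  rw [castLS_qExpandK]
  intro h
  exact hw ((map_eq_zero (qExpand k n)).1 h)

theorem castLS_neg_gS_sq_ne_zeroK {k : Type*} [Field k] : castLS k (-(gS ^ 2)) ≠ 0 := by
  have : castLS k (-(gS ^ 2)) = -(castLS k gS) ^ 2 := by simp only [castLS, map_neg, map_pow]
  rw [this]
  exact neg_ne_zero.2 (pow_ne_zero _ castLS_gS_ne_zero)

/-- `1 - h(T^a)/h(T^b) ≠ 0` in every characteristic, `a ≠ b`. -/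
theorem castLS_one_sub_h_ne_zeroK {k : Type*} [Field k] (a b : ℕ) [NeZero a] [NeZero b]
    (hab : a ≠ b) : castLS k (1 - qExpand ℤ a hSer * qExpand ℤ b tSer) ≠ 0 := by
  have h1 : qExpand ℤ a hSer * qExpand ℤ b tSer
      = monS ((a : ℤ) - b) (psi8inv.expand a (NeZero.ne _) * psi8.expand b (NeZero.ne _)) := by
    rw [hSer_eq, tSer_eq, qExpand_monS, qExpand_monS, monS_mul]
    congr 1
    ring
  rcases lt_or_gt_of_ne hab with h | h
  · refine castLS_ne_zero_of_coeff (n := (a : ℤ) - b) ?_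
    have h2 : (a : ℤ) - b ≠ 0 := by
      have : (a : ℤ) < b := by exact_mod_cast h
      omega
    rw [h1, HahnSeries.coeff_sub, monS_coeff_self, map_mul, PowerSeries.constantCoeff_expand,
      PowerSeries.constantCoeff_expand, constantCoeff_psi8, constantCoeff_psi8inv,
      HahnSeries.coeff_one, if_neg h2]
    norm_num
  · refine castLS_ne_zero_of_coeff (n := 0) ?_
    have h2 : (0 : ℤ) < (a : ℤ) - b := by
      have : (b : ℤ) < a := by exact_mod_cast h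
      omega
    rw [h1, HahnSeries.coeff_sub, monS_coeff_of_lt _ _ h2, HahnSeries.coeff_one, if_pos rfl,
      sub_zero]
    exact isUnit_one

/-- `1 - j(T^a)/j(T^b) ≠ 0` in every characteristic, `a ≠ b`. -/
theorem castLS_one_sub_j_ne_zeroK {k : Type*} [Field k] (a b : ℕ) [NeZero a] [NeZero b]
    (hab : a ≠ b) : castLS k (1 - qExpand ℤ a (jqModC ℤ) * qExpand ℤ b jInvSer) ≠ 0 := by
  have h1 : qExpand ℤ a (jqModC ℤ) * qExpand ℤ b jInvSer
      = monS ((b : ℤ) - a) (jNum.expand a (NeZero.ne _) *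
          (jNum.invOfUnit 1).expand b (NeZero.ne _)) := by
    rw [jqModC_int_eq, jInvSer, qExpand_monS, qExpand_monS, monS_mul]
    congr 1
    ring
  have hc : PowerSeries.constantCoeff (jNum.invOfUnit 1) = 1 := by
    rw [PowerSeries.constantCoeff_invOfUnit]; rfl
  rcases lt_or_gt_of_ne hab with h | h
  · refine castLS_ne_zero_of_coeff (n := 0) ?_
    have h2 : (0 : ℤ) < (b : ℤ) - a := by
      have : (a : ℤ) < b := by exact_mod_cast h
      omega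
    rw [h1, HahnSeries.coeff_sub, monS_coeff_of_lt _ _ h2, HahnSeries.coeff_one, if_pos rfl,
      sub_zero]
    exact isUnit_one
  · refine castLS_ne_zero_of_coeff (n := (b : ℤ) - a) ?_
    have h2 : (b : ℤ) - a ≠ 0 := by
      have : (b : ℤ) < a := by exact_mod_cast h
      omega
    rw [h1, HahnSeries.coeff_sub, monS_coeff_self, map_mul, PowerSeries.constantCoeff_expand,
      PowerSeries.constantCoeff_expand, constantCoeff_jNum, hc, HahnSeries.coeff_one, if_neg h2]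
    norm_num

/-! ### characteristic `q` : `w(T^(q^a)) = w(T)^(q^a)` -/

section CharQ

variable {k : Type*} [Field k] (q : ℕ) [NeZero q] [ExpChar k q]

theorem castLS_qExpand_pow_eqK (a : ℕ) (w : LaurentSeries ℤ) :
    castLS k (qExpand ℤ (q ^ a) w) = castLS k w ^ (q ^ a) := by
  induction a generalizing w with
  | zero =>
    have h0 : qExpand k (q ^ 0) (castLS k w) = qExpand k 1 (castLS k w) := rfl
    have h1 : castLS k w ^ q ^ 0 = castLS k w := by rw [pow_zero, pow_one]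
    rw [castLS_qExpandK, h0, qExpand_one_apply, h1]
  | succ a ih =>
    have h1 : qExpand ℤ (q ^ (a + 1)) w = qExpand ℤ (q ^ a) (qExpand ℤ q w) := by
      rw [qExpand_qExpand]
      rfl
    rw [h1, ih, castLS_qExpandK, castLS_qExpand_eq_pow, ← pow_mul, pow_succ' q a]

end CharQ

section RedQ

variable {L : Type*} [Field L] [CharZero L] {A : ValuationSubring L} {k : Type*} [Field k]
  {π : A →+* k} (hπ : IsResMap π) {F : Type*} [Field F] (σ : F →+* LaurentSeries L)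
  {q : ℕ} [NeZero q] [ExpChar k q] (a : ℕ) (ξ : Lˣ) {x y : F}
  (hv : A.valuation (1 - ((ξ ^ (q ^ a) : Lˣ) : L)) < 1)

include hπ hv in
/-- `h`-version, `q` odd : `σ(1 - x/y)^(q^(s-1)(q-1)) / q ≡ - G^(2 q^(a+s-1) (q-1))`. -/
theorem redTo_sigma_h_powK (hq : q.Prime) (hodd : q ≠ 2) {s : ℕ} (hs : s ≠ 0)
    (hz : IsPrimitiveRoot (ξ ^ (q ^ a)) (q ^ s))
    (hx : σ x = qExpand L (q ^ a) (castLS L hSer))
    (hy : σ y = rot ξ (qExpand L (q ^ a) (castLS L hSer))) :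
    RedTo π (σ (1 - x * y⁻¹) ^ (q ^ (s - 1) * (q - 1)) / HahnSeries.C (q : L))
      (-(castLS k gS) ^ (2 * (q ^ a * (q ^ (s - 1) * (q - 1))))) := by
  refine (redTo_sigma_powK hπ σ (q ^ a) ξ tSer_mul_hSer hx hy hv hq hs hz).congr rfl ?_
  have he : Even (q ^ (s - 1) * (q - 1)) := by
    rcases hq.eq_two_or_odd' with h | h
    · exact absurd h hodd
    · obtain ⟨m, hm⟩ := h
      exact Even.mul_left ⟨m, by omega⟩ _
  have h1 : castLS k (-(gS ^ 2)) = -(castLS k gS) ^ 2 := by simp only [castLS, map_neg, map_pow]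
  rw [DL_tSer_mulK, castLS_qExpand_pow_eqK, h1, ← pow_mul, (he.mul_left _).neg_pow, ← pow_mul]

include hπ hv in
/-- `j`-version : `σ(1 - x/y)^(q^(s-1)(q-1)) / q ≡ - w_J^(q^(a+s-1) (q-1))`. -/
theorem redTo_sigma_j_powK (hq : q.Prime) {s : ℕ} (hs : s ≠ 0)
    (hz : IsPrimitiveRoot (ξ ^ (q ^ a)) (q ^ s))
    (hx : σ x = qExpand L (q ^ a) (castLS L (jqModC ℤ)))
    (hy : σ y = rot ξ (qExpand L (q ^ a) (castLS L (jqModC ℤ)))) :
    RedTo π (σ (1 - x * y⁻¹) ^ (q ^ (s - 1) * (q - 1)) / HahnSeries.C (q : L))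
      (-(castLS k wJS) ^ (q ^ a * (q ^ (s - 1) * (q - 1)))) := by
  refine (redTo_sigma_powK hπ σ (q ^ a) ξ jInvSer_mul hx hy hv hq hs hz).congr rfl ?_
  rw [DL_jInvSer_mulK, castLS_qExpand_pow_eqK, ← pow_mul]

end RedQ

/-! ### the elements -/

section Elements

variable (L D₁ D₂ : ℕ) [NeZero L] [NeZero D₁] [NeZero D₂]

/-- `1 - h(D₁ τ)/h(D₂ τ)`. -/
def varpiK (h₁ : 4 * D₁ ∣ L) (h₂ : 4 * D₂ ∣ L) : FN L := 1 - hFD D₁ L h₁ * (hFD D₂ L h₂)⁻¹

/-- `1 - j(D₁ τ)/j(D₂ τ)`. -/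
def varpiJK (h₁ : D₁ ∣ L) (h₂ : D₂ ∣ L) : FN L := 1 - jBar L D₁ h₁ * (jBar L D₂ h₂)⁻¹

theorem isIntegral_varpiK (h₁ : 4 * D₁ ∣ L) (h₂ : 4 * D₂ ∣ L) :
    IsIntegral (Algebra.adjoin Kb {jF L}) (varpiK L D₁ D₂ h₁ h₂) :=
  isIntegral_one_sub_mul_abs (jF L) (isIntegral_hFD _ _ _) (isIntegral_hFD_inv _ _ _)

/-- the expansion of `varpiK` at `∞`. -/
theorem coe_varpiK (h₁ : 4 * D₁ ∣ L) (h₂ : 4 * D₂ ∣ L) :
    (varpiK L D₁ D₂ h₁ h₂ : LaurentSeries Kb)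
      = castLS Kb (1 - qExpand ℤ D₁ hSer * qExpand ℤ D₂ tSer) := by
  have h1 : ((1 - hFD D₁ L h₁ * (hFD D₂ L h₂)⁻¹ : FN L) : LaurentSeries Kb)
      = 1 - (hFD D₁ L h₁ : LaurentSeries Kb) * (((hFD D₂ L h₂)⁻¹ : FN L) : LaurentSeries Kb) := rfl
  rw [varpiK, h1, coe_hFD_inv, coe_hFD]
  simp only [castLS, map_sub, map_one, map_mul, coeffMap_qExpand]

theorem exists_varpiK0 (A : ValuationSubring Kb) (h₁ : 4 * D₁ ∣ L) (h₂ : 4 * D₂ ∣ L) :
    ∃ y : F0 A L, embF0 A L y = varpiK L D₁ D₂ h₁ h₂ :=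
  exists_embF0_eq A _ _ (by rw [coe_varpiK]; exact castLS_coeff_mem_K0 A _)

/-- `1 - h(D₁ τ)/h(D₂ τ)` over `K0 A`. -/
def varpiK0 (A : ValuationSubring Kb) (h₁ : 4 * D₁ ∣ L) (h₂ : 4 * D₂ ∣ L) : F0 A L :=
  (exists_varpiK0 L D₁ D₂ A h₁ h₂).choose

theorem embF0_varpiK0 (A : ValuationSubring Kb) (h₁ : 4 * D₁ ∣ L) (h₂ : 4 * D₂ ∣ L) :
    embF0 A L (varpiK0 L D₁ D₂ A h₁ h₂) = varpiK L D₁ D₂ h₁ h₂ :=
  (exists_varpiK0 L D₁ D₂ A h₁ h₂).choose_spec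

theorem castLS_jqModCK : castLS Kb (jqModC ℤ) = jqModC Kb := coeffMap_jqModC _

/-- the expansion of `varpiJK` at `∞`. -/
theorem coe_varpiJK (h₁ : D₁ ∣ L) (h₂ : D₂ ∣ L) :
    (varpiJK L D₁ D₂ h₁ h₂ : LaurentSeries Kb)
      = castLS Kb (1 - qExpand ℤ D₁ (jqModC ℤ) * qExpand ℤ D₂ jInvSer) := by
  have h1 : ((1 - jBar L D₁ h₁ * (jBar L D₂ h₂)⁻¹ : FN L) : LaurentSeries Kb)
      = 1 - (jBar L D₁ h₁ : LaurentSeries Kb) * ((jBar L D₂ h₂ : FN L) : LaurentSeries Kb)⁻¹ := rfl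
  have h2 : castLS Kb jInvSer * castLS Kb (jqModC ℤ) = 1 := by
    rw [← map_mul, jInvSer_mul, map_one]
  have h3 : (castLS Kb (jqModC ℤ))⁻¹ = castLS Kb jInvSer := inv_eq_of_mul_eq_one_left h2
  rw [varpiJK, h1, coe_jBar, coe_jBar, jqNModC, jqNModC, ← castLS_jqModCK, ← map_inv₀, h3]
  simp only [castLS, map_sub, map_one, map_mul, coeffMap_qExpand]

theorem exists_varpiJK0 (A : ValuationSubring Kb) (h₁ : D₁ ∣ L) (h₂ : D₂ ∣ L) :
    ∃ y : F0 A L, embF0 A L y = varpiJK L D₁ D₂ h₁ h₂ :=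
  exists_embF0_eq A _ _ (by rw [coe_varpiJK]; exact castLS_coeff_mem_K0 A _)

/-- `1 - j(D₁ τ)/j(D₂ τ)` over `K0 A`. -/
def varpiJK0 (A : ValuationSubring Kb) (h₁ : D₁ ∣ L) (h₂ : D₂ ∣ L) : F0 A L :=
  (exists_varpiJK0 L D₁ D₂ A h₁ h₂).choose

theorem embF0_varpiJK0 (A : ValuationSubring Kb) (h₁ : D₁ ∣ L) (h₂ : D₂ ∣ L) :
    embF0 A L (varpiJK0 L D₁ D₂ A h₁ h₂) = varpiJK L D₁ D₂ h₁ h₂ :=
  (exists_varpiJK0 L D₁ D₂ A h₁ h₂).choose_spec

end Elements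

end Fermat.Agent.S45
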