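import Fermat.Agent.S36.Haupt.CuspMod
import Fermat.Agent.S45.Haupt.MainK

/-!
# S45 / [CUSP-MOD_k] : the hypotheses `hz`, `hres` of `JTupleK.cusp`, architecture independent

The relation `S(j₀) z ≡ c(j₀)` of `S36.Ctx.hres` (level `q²`, `M = 1`) reduces to an identity of series over the
residue field `k` : `S(jbar) * zbar = c(jbar)`, `zbar = - w_J^(q-1)` (`exists_series_rel`).  The substitution
`T ↦ T^(q^n)` is `k`-linear and is the `q^n`-th power on series with coefficients in the prime field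
(`series_rel_powK`); replacing `S`, `c` by `expand (q^b)` gives `hresK` for ANY Gauss valuation at which `j₀` reduces to
`jbar^(q^a)` and `z` to `- w_J^(q^(a+b) (q-1))`.
-/

set_option autoImplicit false
set_option linter.unusedSectionVars false

open ModularCurve Polynomial Fermat.Agent.S24 Fermat.Agent.S28 Fermat.Agent.RED.Gauss
open Fermat.Agent.S36

noncomputable section

namespace Fermat.Agent.S45

/-- the reduction of `(1 - j₀/j₂)^(q-1)/q` at the level `q²`. -/
def zbarK (k : Type*) [Field k] (q : ℕ) : LaurentSeries k := -(castLS k wJS) ^ (q - 1)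

/-- **the series identity behind `hres`** (extracted from the level `q²`, `S36.Ctx.hres`). -/
theorem exists_series_rel (A : ValuationSubring Kb) {q : ℕ} (hq : q.Prime)
    (hA : A.LiesOverPrime q) :
    ∃ (S c : (RK A)[X]) (d : ℕ), S.natDegree ≤ d ∧ c.natDegree ≤ d ∧ IsUnit (S.coeff d) ∧
      IsUnit (c.coeff d) ∧
      aeval (jqModC (IsLocalRing.ResidueField A)) (S.map (pi0 A)) * zbarK _ q
        = aeval (jqModC (IsLocalRing.ResidueField A)) (c.map (pi0 A)) := by
  have : NeZero q := ⟨hq.ne_zero⟩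
  obtain ⟨ζ, hζ⟩ := HasEnoughRootsOfUnity.exists_primitiveRoot Kb q
  have hζ0 : ζ ≠ 0 := hζ.ne_zero hq.ne_zero
  let C : Ctx :=
    { A := A, q := q, M := 1, hq := hq, hA := hA, hM := one_ne_zero
      hqM := fun h => hq.one_lt.ne' (Nat.dvd_one.1 h)
      ζ := Units.mk0 ζ hζ0
      hζ := by rw [← IsPrimitiveRoot.coe_units_iff]; exact hζ }
  obtain ⟨S, c, d, h1, h2, h3, h4, h5⟩ := C.hres
  refine ⟨S, c, d, h1, h2, h3, h4, ?_⟩
  rw [C.algebraMap_q] at h5
  have hc := hc_of_const C.A (C.e3 1) C.e3_one_const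
  have r1 : RedTo C.π (C.e3 1 (aeval (C.j 0) S * ((1 - C.j 0 / C.j 2) ^ (C.q - 1) / (C.q : C.F))
      - aeval (C.j 0) c))
      (aeval (jqModC C.k) (S.map (pi0 C.A)) * (-(castLS C.k wJS) ^ (C.q - 1))
        - aeval (jqModC C.k) (c.map (pi0 C.A))) := by
    rw [map_sub, map_mul]
    exact ((redTo_aeval C.hπ (C.disc3 1) hc C.redTo_j_zero S).mul C.redTo_zJ).sub
      (redTo_aeval C.hπ (C.disc3 1) hc C.redTo_j_zero c)
  have r2 := r1.unique ((gv_valuation_lt_one_iff C.hπ (C.disc3 1)).1 h5)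
  exact sub_eq_zero.1 r2

/-! ### substitution `T ↦ T^(q^n)` -/

section Subst

variable {k : Type*} [Field k] (q : ℕ) [NeZero q] [ExpChar k q]

theorem qExpand_castLS_powK (n : ℕ) (w : LaurentSeries ℤ) :
    qExpand k (q ^ n) (castLS k w) = castLS k w ^ (q ^ n) := by
  rw [← castLS_qExpandK, castLS_qExpand_pow_eqK]

theorem qExpand_jqModC_powK (n : ℕ) : qExpand k (q ^ n) (jqModC k) = jqModC k ^ (q ^ n) := by
  have h : jqModC k = castLS k (jqModC ℤ) := (coeffMap_jqModC (Int.castRingHom k)).symm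
  rw [h, qExpand_castLS_powK]

theorem qExpand_aevalK (N : ℕ) [NeZero N] (x : LaurentSeries k) (p : k[X]) :
    qExpand k N (aeval x p) = aeval (qExpand k N x) p := by
  have := Polynomial.aeval_algHom_apply (qExpandAlgHomC k N) x p
  simpa using this.symm

/-- the series identity after the substitution `T ↦ T^(q^n)`. -/
theorem series_rel_powK {S c : k[X]}
    (h : aeval (jqModC k) S * zbarK k q = aeval (jqModC k) c) (n : ℕ) :
    aeval (jqModC k ^ (q ^ n)) S * (-(castLS k wJS) ^ (q ^ n * (q - 1)))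
      = aeval (jqModC k ^ (q ^ n)) c := by
  have h1 := congrArg (qExpand k (q ^ n)) h
  rw [map_mul, qExpand_aevalK, qExpand_aevalK, qExpand_jqModC_powK, zbarK, map_neg, map_pow,
    qExpand_castLS_powK, ← pow_mul] at h1
  exact h1

end Subst

/-! ### `hres`, `hz` for an arbitrary Gauss valuation -/

section Main

variable (A : ValuationSubring Kb) {q : ℕ} (hq : q.Prime) (hA : A.LiesOverPrime q)
  {F : Type*} [Field F] [Algebra (KK A) F] [Algebra (RK A) F] [IsScalarTower (RK A) (KK A) F]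
  {e : F →+* LaurentSeries Kb} {lam : Kb} (h : IsDiscEmb A lam e)
  (he : ∀ c : KK A, e (algebraMap (KK A) F c) = HahnSeries.C (algebraMap (KK A) Kb c))

local notation "π" => IsLocalRing.residue A
local notation "k" => IsLocalRing.ResidueField A
local notation "hπ" => isResMap_residue A

include hq hA he in
/-- **[CUSP-MOD_k]** the hypothesis `hres` : if `j₀` reduces to `jbar (T^(q^a))` and `z` to
`- w_J (T^(q^(a+b)))^(q-1)`, then `S(j₀) z ≡ c(j₀)` with `S`, `c` of degree `≤ d` and unit coefficients in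
degree `d`. -/
theorem hresK {j₀ z : F} (a b : ℕ) (hj : RedTo π (e j₀) (jqModC k ^ (q ^ a)))
    (hz : RedTo π (e z) (-(castLS k wJS) ^ (q ^ (a + b) * (q - 1)))) :
    ∃ (S c : (RK A)[X]) (d : ℕ), S.natDegree ≤ d ∧ c.natDegree ≤ d ∧ IsUnit (S.coeff d) ∧
      IsUnit (c.coeff d) ∧ (gvO π hπ h).valuation (aeval j₀ S * z - aeval j₀ c) < 1 := by
  have : NeZero q := ⟨hq.ne_zero⟩
  have : CharP k q := Fermat.Agent.RED.GalEq.charP_residueField hq hA
  have : ExpChar k q := ExpChar.prime hq
  obtain ⟨S, c, d, h1, h2, h3, h4, h5⟩ := exists_series_rel A hq hA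
  have hpos : 0 < q ^ b := pow_pos hq.pos b
  refine ⟨expand (RK A) (q ^ b) S, expand (RK A) (q ^ b) c, d * q ^ b, ?_, ?_, ?_, ?_, ?_⟩
  · rw [natDegree_expand]; exact Nat.mul_le_mul_right _ h1
  · rw [natDegree_expand]; exact Nat.mul_le_mul_right _ h2
  · rw [coeff_expand_mul hpos]; exact h3
  · rw [coeff_expand_mul hpos]; exact h4
  · have hc := hc_of_const A e he
    have hj' : RedTo π (e (j₀ ^ (q ^ b))) (jqModC k ^ (q ^ (a + b))) := by
      rw [map_pow, pow_add, pow_mul]
      exact hj.pow _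
    rw [expand_aeval, expand_aeval]
    refine (gv_valuation_lt_one_iff hπ h).2 ?_
    have r1 : RedTo π (e (aeval (j₀ ^ (q ^ b)) S * z - aeval (j₀ ^ (q ^ b)) c))
        (aeval (jqModC k ^ (q ^ (a + b))) (S.map (pi0 A))
            * (-(castLS k wJS) ^ (q ^ (a + b) * (q - 1)))
          - aeval (jqModC k ^ (q ^ (a + b))) (c.map (pi0 A))) := by
      rw [map_sub, map_mul]
      exact ((redTo_aeval hπ h hc hj' S).mul hz).sub (redTo_aeval hπ h hc hj' c)
    rw [series_rel_powK q h5 (a + b), sub_self] at r1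
    exact r1

omit [Algebra (KK A) F] [Algebra (RK A) F] [IsScalarTower (RK A) (KK A) F] in
/-- the hypothesis `hz`. -/
theorem hzK {z : F} (n : ℕ) (hz : RedTo π (e z) (-(castLS k wJS) ^ n)) :
    (gvO π hπ h).valuation z = 1 :=
  gv_val_eq_one_of_redTo hπ h hz (neg_ne_zero.2 (pow_ne_zero _ castLS_wJS_ne_zero))

end Main

end Fermat.Agent.S45
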