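import Fermat.Agent.S36.Haupt.RotD

/-!
# S45 / [HAUPT] : `[CYCLO]`, `[ROTPOW]` for a root of unity of order `q ^ (s + 1)`

`z` a primitive `q^(s+1)`-th root of unity, `e = (q - 1) q^s = φ(q^(s+1))`:
* `exists_cyclo_unit_pow` : `(1 - z)^e = q (-1 + (1 - z) ε)`, `ε` integral;
* `exists_rot_powK` : `(1 - u(zT)/u(T))^e = q (-(Du/u)^e + (1 - z) R)`, `R` integral.
(`S36/Haupt/RotD.lean` is the case `s = 0`; `exists_rot_rem`, `exists_rot_quot` there hold for every integral unit.)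
-/

set_option autoImplicit false

open ModularCurve Fermat.Agent.S24 Fermat.Agent.S28 Fermat.Agent.S36

noncomputable section

namespace Fermat.Agent.S45

/-- `(a + c b)^n = a^n + c r` in a commutative ring. -/
theorem exists_add_mul_pow {A : Type*} [CommRing A] (a b c : A) (n : ℕ) :
    ∃ r : A, (a + c * b) ^ n = a ^ n + c * r := by
  induction n with
  | zero => exact ⟨0, by simp⟩
  | succ n ih =>
    obtain ⟨r, h⟩ := ih
    exact ⟨r * (a + c * b) + a ^ n * b, by rw [pow_succ, h, pow_succ]; ring⟩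

/-- the induction step, in a commutative ring `A` (later: the ring of algebraic integers):
`y = 1 - (1 - x)^q`, `y^n = q (-1 + y ε')`   ⟹   `x^(n q) = q (-1 + x ε)`. -/
theorem cyclo_step {A : Type*} [CommRing A] {q : ℕ} (hq : q.Prime) (x ε' : A) {n : ℕ}
    (h : (1 - (1 - x) ^ q) ^ n = (q : A) * (-1 + (1 - (1 - x) ^ q) * ε')) :
    ∃ ε : A, x ^ (n * q) = (q : A) * (-1 + x * ε) := by
  rcases hq.eq_two_or_odd' with rfl | hodd
  · -- `q = 2` : `x² = 2 x - y`
    have hy : 1 - (1 - x) ^ 2 = x * (2 - x) := by ring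
    rw [hy] at h
    have hx2 : x ^ 2 = -(x * (2 - x)) + (2 * x) * 1 := by ring
    obtain ⟨r, hr⟩ := exists_add_mul_pow (-(x * (2 - x))) 1 (2 * x) n
    push_cast at h ⊢
    rw [mul_comm n 2, pow_mul, hx2, hr]
    rcases Nat.even_or_odd n with hn | hn
    · rw [hn.neg_pow, h]
      exact ⟨(2 - x) * ε' + r, by ring⟩
    · rw [hn.neg_pow, h]
      obtain ⟨j, rfl⟩ : ∃ j, n = j + 1 := ⟨n - 1, by have := hn.pos; omega⟩
      refine ⟨(2 - x) * (2 * ε' - (x * (2 - x)) ^ j) - (2 - x) * ε' + r, ?_⟩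
      rw [pow_succ] at h
      linear_combination (2 : A) * h
  · obtain ⟨E, hE⟩ := exists_one_add_pow_prime hq (-x)
    obtain ⟨k, hk⟩ : ∃ k, q = k + 1 := ⟨q - 1, (Nat.sub_add_cancel hq.one_le).symm⟩
    have hxk : x ^ q = x * x ^ k := by rw [hk, pow_succ']
    have hy : 1 - (1 - x) ^ q = x * ((q : A) + x ^ k - q * x * E) := by
      rw [sub_eq_add_neg 1 x, hE, hodd.neg_pow, hxk]
      ring
    rw [hy] at h
    have hxq : x ^ q = x * ((q : A) + x ^ k - q * x * E) + ((q : A) * x) * (-1 + x * E) := by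
      rw [hxk]; ring
    obtain ⟨r, hr⟩ := exists_add_mul_pow (x * ((q : A) + x ^ k - q * x * E)) (-1 + x * E)
      ((q : A) * x) n
    rw [mul_comm n q, pow_mul, hxq, hr, h]
    exact ⟨((q : A) + x ^ k - q * x * E) * ε' + r, by ring⟩

variable {K : Type*} [Field K]

/-- **[CYCLO]** `(1-z)^((q-1) q^s) = q (-1 + (1-z) ε)`, `ε` integral, `z` of order `q^(s+1)`. -/
theorem exists_cyclo_unit_pow_aux [CharZero K] {q : ℕ} (hq : q.Prime) (s : ℕ) (z : K)
    (hz : IsPrimitiveRoot z (q ^ (s + 1))) : ∃ ε : K, IsIntegral ℤ ε ∧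
      (1 - z) ^ ((q - 1) * q ^ s) = (q : K) * (-1 + (1 - z) * ε) := by
  induction s generalizing z with
  | zero =>
    rw [pow_zero, mul_one]
    exact exists_cyclo_unit_aux hq z (by simpa using hz)
  | succ s ih =>
    have hz' : IsPrimitiveRoot (z ^ q) (q ^ (s + 1)) :=
      hz.pow (pow_pos hq.pos _) (by rw [pow_succ' q (s + 1)])
    obtain ⟨ε', hε', h'⟩ := ih (z ^ q) hz'
    have hint : IsIntegral ℤ z := hz.isIntegral (pow_pos hq.pos _)
    let x : integralClosure ℤ K := ⟨1 - z, isIntegral_one.sub hint⟩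
    let e' : integralClosure ℤ K := ⟨ε', hε'⟩
    have hx : ((1 - (1 - x) ^ q : integralClosure ℤ K) : K) = 1 - z ^ q := by
      simp [x]
    obtain ⟨ε, hε⟩ := cyclo_step (A := integralClosure ℤ K) hq x e' (n := (q - 1) * q ^ s) (by
      apply Subtype.ext
      have : (((1 - (1 - x) ^ q) ^ ((q - 1) * q ^ s) : integralClosure ℤ K) : K)
          = (1 - z ^ q) ^ ((q - 1) * q ^ s) := by
        rw [← hx]; rfl
      rw [this, h']
      have h2 : (((q : integralClosure ℤ K) * (-1 + (1 - (1 - x) ^ q) * e') :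
          integralClosure ℤ K) : K) = (q : K) * (-1 + ((1 - (1 - x) ^ q : integralClosure ℤ K) : K) * ε') := by
        simp [e']
      rw [h2, hx])
    refine ⟨(ε : K), ε.2, ?_⟩
    have h3 := congrArg (fun w : integralClosure ℤ K => (w : K)) hε
    have h4 : (q - 1) * q ^ (s + 1) = (q - 1) * q ^ s * q := by rw [pow_succ, mul_assoc]
    rw [h4]
    simpa [x] using h3

theorem exists_cyclo_unit_pow [CharZero K] {q : ℕ} (hq : q.Prime) (s : ℕ) (z : Kˣ)
    (hz : IsPrimitiveRoot z (q ^ (s + 1))) : ∃ ε : K, IsIntegral ℤ ε ∧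
      (1 - (z : K)) ^ ((q - 1) * q ^ s) = (q : K) * (-1 + (1 - (z : K)) * ε) :=
  exists_cyclo_unit_pow_aux hq s (z : K) (IsPrimitiveRoot.coe_units_iff.2 hz)

/-- **[ROTPOW]** `(1 - u(zT)/u(T))^e = q (-(Du/u)^e + (1-z) R)`, `e = (q-1) q^s`. -/
theorem exists_rot_powK [CharZero K] {q : ℕ} (hq : q.Prime) (s : ℕ) (z : Kˣ)
    (hz : IsPrimitiveRoot z (q ^ (s + 1)))
    (u v : LaurentSeries ℤ) (huv : u * v = 1) : ∃ R : LaurentSeries K, IntS R ∧
      (1 - rot z (castLS K u) * (castLS K u)⁻¹) ^ ((q - 1) * q ^ s)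
        = HahnSeries.C (q : K) *
          (- castLS K ((DL u * v) ^ ((q - 1) * q ^ s)) + HahnSeries.C (1 - (z : K)) * R) := by
  have hpos : 0 < q ^ (s + 1) := pow_pos hq.pos _
  have h1 : IsIntegral ℤ (z : K) := (IsPrimitiveRoot.coe_units_iff.2 hz).isIntegral hpos
  have h2 : IsIntegral ℤ ((z⁻¹ : Kˣ) : K) :=
    (IsPrimitiveRoot.coe_units_iff.2 hz.inv).isIntegral hpos
  have hπ : IsIntegral ℤ (1 - (z : K)) := isIntegral_one.sub h1
  obtain ⟨r, hr, h⟩ := exists_rot_quot z h1 h2 u v huv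
  obtain ⟨ε, hε, hcy⟩ := exists_cyclo_unit_pow hq s z hz
  obtain ⟨r', hr', h'⟩ := exists_add_C_mul_pow (1 - (z : K)) hπ (intS_castLS (K := K) (DL u * v)) hr
    ((q - 1) * q ^ s)
  refine ⟨HahnSeries.C ε * castLS K (DL u * v) ^ ((q - 1) * q ^ s) + -r' +
      HahnSeries.C (1 - (z : K)) * (HahnSeries.C ε * r'), ?_, ?_⟩
  · exact (((intS_C hε).mul ((intS_castLS _).pow _)).add hr'.neg).add
      ((intS_C hπ).mul ((intS_C hε).mul hr'))
  · have hC : (HahnSeries.C (1 - (z : K)) : LaurentSeries K) ^ ((q - 1) * q ^ s) =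
        HahnSeries.C (q : K) * (-1 + HahnSeries.C (1 - (z : K)) * HahnSeries.C ε) := by
      rw [← map_pow, hcy, map_mul, map_add, map_neg, map_one, map_mul]
    have hp : castLS K ((DL u * v) ^ ((q - 1) * q ^ s)) = castLS K (DL u * v) ^ ((q - 1) * q ^ s) :=
      map_pow (coeffMap (Int.castRingHom K)) _ _
    rw [h, mul_pow, h', hC, hp]
    ring

end Fermat.Agent.S45
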