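import Fermat.Agent.S36.Haupt.RotD

/-!
# S45 / [MODK-HAUPT] : formal part for a root of unity `ζ` of order `q ^ s`

* `exists_cyclo_unitK`  : `(1-ζ)^(q^(s-1)(q-1)) = q (-1 + (1-ζ) ε)`, `ε` integral;
* `exists_rot_pow_ppK`     : `(1 - u(ζT)/u(T))^(q^(s-1)(q-1)) = q (-(Du/u)^(..) + (1-ζ) R)`;
* `rot_qExpandK`        : `rot ξ (u(T^c)) = (rot (ξ^c) u)(T^c)`.
Port of `S36/Haupt/RotD.lean` (`s = 1`).
-/

set_option autoImplicit false

open ModularCurve Fermat.Agent.S24 Fermat.Agent.S28 Fermat.Agent.S36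

noncomputable section

namespace Fermat.Agent.S45

variable {K : Type*} [Field K]

/-- `1 - x^n = (1-x) g`, `g` integral. -/
theorem exists_one_sub_powK {x : K} (hx : IsIntegral ℤ x) (n : ℕ) :
    ∃ g : K, IsIntegral ℤ g ∧ 1 - x ^ n = (1 - x) * g :=
  ⟨∑ i ∈ Finset.range n, x ^ i, IsIntegral.sum _ fun i _ => hx.pow i,
    (mul_neg_geom_sum x n).symm⟩

/-- `q = (1-ω) d`, `d` integral, for a primitive `q`-th root of unity `ω`, `1 < q`. -/
theorem exists_natCast_eq_one_sub_mulK {q : ℕ} (hq : 1 < q) {ω : K} (hω : IsPrimitiveRoot ω q) :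
    ∃ d : K, IsIntegral ℤ d ∧ (q : K) = (1 - ω) * d := by
  have hint : IsIntegral ℤ ω := hω.isIntegral (by omega)
  choose g hg hge using fun n : ℕ => exists_one_sub_powK hint n
  refine ⟨∑ i ∈ Finset.range q, g i, IsIntegral.sum _ fun i _ => hg i, ?_⟩
  rw [Finset.mul_sum]
  have h1 : ∑ i ∈ Finset.range q, (1 - ω) * g i = ∑ i ∈ Finset.range q, (1 - ω ^ i) :=
    Finset.sum_congr rfl fun i _ => (hge i).symm
  rw [h1, Finset.sum_sub_distrib, hω.geom_sum_eq_zero hq]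
  simp

/-- `q = (1-η) d`, `d` integral, for a primitive `q^(s+1)`-th root of unity `η`. -/
theorem exists_natCast_eq_one_sub_mul_powK {q : ℕ} (hq : 1 < q) (s : ℕ) {η : K}
    (hη : IsPrimitiveRoot η (q ^ (s + 1))) :
    ∃ d : K, IsIntegral ℤ d ∧ (q : K) = (1 - η) * d := by
  have hint : IsIntegral ℤ η := hη.isIntegral (pow_pos (by omega) _)
  have hω : IsPrimitiveRoot (η ^ (q ^ s)) q :=
    hη.pow (pow_pos (by omega) _) (by rw [pow_succ])
  obtain ⟨d, hd, h⟩ := exists_natCast_eq_one_sub_mulK hq hω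
  obtain ⟨g, hg, h'⟩ := exists_one_sub_powK hint (q ^ s)
  exact ⟨g * d, hg.mul hd, by rw [h, h']; ring⟩

/-- `(1 + c b)^n = 1 + c r`. -/
theorem exists_one_add_mul_powK {c b : K} (hc : IsIntegral ℤ c) (hb : IsIntegral ℤ b) (n : ℕ) :
    ∃ r : K, IsIntegral ℤ r ∧ (1 + c * b) ^ n = 1 + c * r := by
  induction n with
  | zero => exact ⟨0, isIntegral_zero, by simp⟩
  | succ n ih =>
    obtain ⟨r, hr, h⟩ := ih
    exact ⟨r + b + c * r * b, (hr.add hb).add ((hc.mul hr).mul hb), by rw [pow_succ, h]; ring⟩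

/-- the step : `(1-ζ)^q = (1-ζ^q)(1 + (1-ζ) δ)` as soon as `1 - ζ^q` divides `q`. -/
theorem exists_one_sub_pow_primeK {q : ℕ} (hq : q.Prime) {ζ d : K} (hζ : IsIntegral ℤ ζ)
    (hd : IsIntegral ℤ d) (h : (q : K) = (1 - ζ ^ q) * d) :
    ∃ δ : K, IsIntegral ℤ δ ∧ (1 - ζ) ^ q = (1 - ζ ^ q) * (1 + (1 - ζ) * δ) := by
  rcases hq.eq_two_or_odd' with rfl | hodd
  · refine ⟨-(d * ζ), (hd.mul hζ).neg, ?_⟩
    push_cast at h
    linear_combination (ζ ^ 2 - ζ) * h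
  · let x : integralClosure ℤ K := ⟨-(1 - ζ), (isIntegral_one.sub hζ).neg⟩
    obtain ⟨E, hE⟩ := exists_one_add_pow_prime hq x
    have h1 := congrArg (fun z : integralClosure ℤ K => (z : K)) hE
    simp only [x, Subalgebra.coe_add, Subalgebra.coe_mul, Subalgebra.coe_pow, Subalgebra.coe_one,
      SubringClass.coe_natCast] at h1
    have h2 : (1 + -(1 - ζ)) = ζ := by ring
    rw [h2, hodd.neg_pow] at h1
    refine ⟨-(d * (1 - (1 - ζ) * (E : K))),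
      (hd.mul (isIntegral_one.sub ((isIntegral_one.sub hζ).mul E.2))).neg, ?_⟩
    rw [h] at h1
    linear_combination h1

/-- **[CYCLO_K]** `(1-ζ)^(q^s (q-1)) = q (-1 + (1-ζ) ε)`, `ε` integral, `ζ` of order `q^(s+1)`. -/
theorem exists_cyclo_unitK_aux [CharZero K] {q : ℕ} (hq : q.Prime) (s : ℕ) :
    ∀ ζ : K, IsPrimitiveRoot ζ (q ^ (s + 1)) → ∃ ε : K, IsIntegral ℤ ε ∧
      (1 - ζ) ^ (q ^ s * (q - 1)) = (q : K) * (-1 + (1 - ζ) * ε) := by
  induction s with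
  | zero =>
    intro ζ hζ
    rw [zero_add, pow_one] at hζ
    rw [pow_zero, one_mul]
    exact exists_cyclo_unit_aux hq ζ hζ
  | succ s ih =>
    intro ζ hζ
    have hint : IsIntegral ℤ ζ := hζ.isIntegral (pow_pos hq.pos _)
    have hπ : IsIntegral ℤ (1 - ζ) := isIntegral_one.sub hint
    have hη : IsPrimitiveRoot (ζ ^ q) (q ^ (s + 1)) :=
      hζ.pow (pow_pos hq.pos _) (by rw [pow_succ' q (s + 1)])
    obtain ⟨ε, hε, hcy⟩ := ih _ hη
    obtain ⟨d, hd, hqd⟩ := exists_natCast_eq_one_sub_mul_powK hq.one_lt s hη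
    obtain ⟨δ, hδ, hst⟩ := exists_one_sub_pow_primeK hq hint hd hqd
    obtain ⟨r, hr, hpw⟩ := exists_one_add_mul_powK hπ hδ (q ^ s * (q - 1))
    obtain ⟨g, hg, hge⟩ := exists_one_sub_powK hint q
    refine ⟨g * ε * (1 + (1 - ζ) * r) - r,
      ((hg.mul hε).mul (isIntegral_one.add (hπ.mul hr))).sub hr, ?_⟩
    have e : q ^ (s + 1) * (q - 1) = q * (q ^ s * (q - 1)) := by rw [pow_succ']; ring
    rw [e, pow_mul, hst, mul_pow, hcy, hpw, hge]
    ring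

/-- **[CYCLO_K]**, units form, exponent `q^(s-1) (q-1)`. -/
theorem exists_cyclo_unitK [CharZero K] {q : ℕ} (hq : q.Prime) {s : ℕ} (hs : s ≠ 0) (ζ : Kˣ)
    (hζ : IsPrimitiveRoot ζ (q ^ s)) : ∃ ε : K, IsIntegral ℤ ε ∧
      (1 - (ζ : K)) ^ (q ^ (s - 1) * (q - 1)) = (q : K) * (-1 + (1 - (ζ : K)) * ε) := by
  obtain ⟨t, rfl⟩ := Nat.exists_eq_succ_of_ne_zero hs
  exact exists_cyclo_unitK_aux hq t (ζ : K) (IsPrimitiveRoot.coe_units_iff.2 hζ)

/-- `φ(q^s) = q^(s-1) (q-1)`. -/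
theorem totient_prime_powK {q : ℕ} (hq : q.Prime) {s : ℕ} (hs : s ≠ 0) :
    (q ^ s).totient = q ^ (s - 1) * (q - 1) :=
  Nat.totient_prime_pow hq (Nat.pos_of_ne_zero hs)

/-- **[ROTPOW_K]** `(1 - u(ζT)/u(T))^(q^(s-1)(q-1)) = q (-(Du/u)^(..) + (1-ζ) R)`. -/
theorem exists_rot_pow_ppK [CharZero K] {q : ℕ} (hq : q.Prime) {s : ℕ} (hs : s ≠ 0) (ζ : Kˣ)
    (hζ : IsPrimitiveRoot ζ (q ^ s)) (u v : LaurentSeries ℤ) (huv : u * v = 1) :
    ∃ R : LaurentSeries K, IntS R ∧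
      (1 - rot ζ (castLS K u) * (castLS K u)⁻¹) ^ (q ^ (s - 1) * (q - 1))
        = HahnSeries.C (q : K) *
          (- castLS K ((DL u * v) ^ (q ^ (s - 1) * (q - 1))) + HahnSeries.C (1 - (ζ : K)) * R) := by
  have hpos : 0 < q ^ s := pow_pos hq.pos _
  have h1 : IsIntegral ℤ (ζ : K) := (IsPrimitiveRoot.coe_units_iff.2 hζ).isIntegral hpos
  have h2 : IsIntegral ℤ ((ζ⁻¹ : Kˣ) : K) :=
    (IsPrimitiveRoot.coe_units_iff.2 hζ.inv).isIntegral hpos
  have hπ : IsIntegral ℤ (1 - (ζ : K)) := isIntegral_one.sub h1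
  obtain ⟨r, hr, h⟩ := exists_rot_quot ζ h1 h2 u v huv
  obtain ⟨ε, hε, hcy⟩ := exists_cyclo_unitK hq hs ζ hζ
  generalize q ^ (s - 1) * (q - 1) = n at hcy ⊢
  obtain ⟨r', hr', h'⟩ := exists_add_C_mul_pow (1 - (ζ : K)) hπ (intS_castLS (K := K) (DL u * v)) hr n
  refine ⟨HahnSeries.C ε * castLS K (DL u * v) ^ n + -r' +
      HahnSeries.C (1 - (ζ : K)) * (HahnSeries.C ε * r'), ?_, ?_⟩
  · exact (((intS_C hε).mul ((intS_castLS _).pow _)).add hr'.neg).add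
      ((intS_C hπ).mul ((intS_C hε).mul hr'))
  · have hC : (HahnSeries.C (1 - (ζ : K)) : LaurentSeries K) ^ n =
        HahnSeries.C (q : K) * (-1 + HahnSeries.C (1 - (ζ : K)) * HahnSeries.C ε) := by
      rw [← map_pow, hcy, map_mul, map_add, map_neg, map_one, map_mul]
    have hp : castLS K ((DL u * v) ^ n) = castLS K (DL u * v) ^ n :=
      map_pow (coeffMap (Int.castRingHom K)) _ _
    rw [h, mul_pow, h', hC, hp]
    ring

/-- `rot ξ (u(T^c)) = (rot (ξ^c) u)(T^c)`. -/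
theorem rot_qExpandK (c : ℕ) [NeZero c] (ξ : Kˣ) (x : LaurentSeries K) :
    rot ξ (qExpand K c x) = qExpand K c (rot (ξ ^ c) x) := by
  ext m
  rw [rot_coeff]
  by_cases hm : (c : ℤ) ∣ m
  · obtain ⟨n, rfl⟩ := hm
    rw [qExpand_coeff_mul, qExpand_coeff_mul, rot_coeff, zpow_mul, zpow_natCast]
  · rw [qExpand_coeff_of_not_dvd c _ hm, qExpand_coeff_of_not_dvd c _ hm, mul_zero]

/-- `u(T^c)` has integral coefficients if `u` has. -/
theorem intS_qExpandK (c : ℕ) [NeZero c] {x : LaurentSeries K} (hx : IntS x) :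
    IntS (qExpand K c x) := by
  intro m
  by_cases hm : (c : ℤ) ∣ m
  · obtain ⟨n, rfl⟩ := hm
    rw [qExpand_coeff_mul]
    exact hx n
  · rw [qExpand_coeff_of_not_dvd c _ hm]
    exact isIntegral_zero

end Fermat.Agent.S45
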